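import Fermat.Agent.S58X.Ring
import Fermat.Agent.SSMod.TraceDet
import Fermat.Agent.GalRep.WrapFrey
import Fermat.Agent.ECFrob.Qbar

/-!
# Comparison of the `lam`-adic representation with the torsion of the elliptic curve
-/

set_option autoImplicit false
set_option linter.style.haveILetI false
set_option maxHeartbeats 400000

noncomputable section

namespace Fermat.Agent.S58X

open Fermat.Agent.DefRing IsLocalRing Matrix Fermat.Agent.GalRep Fermat.Agent.GalRep.HData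
open WeierstrassCurve WeierstrassCurve.Affine WeierstrassCurve.Affine.Point

local notation "Qbar" => AlgebraicClosure ℚ
local notation "GQ" => Qbar ≃ₐ[ℚ] Qbar

/-- points of `W` over `Qbar` -/
abbrev Pts (W : WeierstrassCurve ℤ) : Type := ((W.map (Int.castRingHom ℚ))⁄Qbar).Point

variable {W : WeierstrassCurve ℤ}

/-- the `n`-torsion -/
def torG (W : WeierstrassCurve ℤ) (n : ℕ) : AddSubgroup (Pts W) where
  carrier := {P | n • P = 0}
  zero_mem' := smul_zero n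
  add_mem' := by
    intro a b ha hb
    show n • (a + b) = 0
    rw [nsmul_add, ha, hb, add_zero]
  neg_mem' := by
    intro a ha
    show n • (-a) = 0
    have h : n • a = 0 := ha
    rw [neg_nsmul, h, _root_.neg_zero]

lemma mem_torG {n : ℕ} {P : Pts W} : P ∈ torG W n ↔ n • P = 0 := Iff.rfl

lemma smul_mem_torG {n : ℕ} (σ : GQ) {P : Pts W} (hP : P ∈ torG W n) : σ • P ∈ torG W n := by
  rw [mem_torG] at hP ⊢
  have := (Point.map (W' := W.map (Int.castRingHom ℚ)) σ.toAlgHom).map_nsmul n P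
  rw [hP, _root_.map_zero] at this
  exact this.symm

lemma gal_nsmul (σ : GQ) (n : ℕ) (P : Pts W) : σ • (n • P) = n • (σ • P) :=
  (Point.map (W' := W.map (Int.castRingHom ℚ)) σ.toAlgHom).map_nsmul n P

lemma ΔQ_ne (hΔ : W.Δ ≠ 0) : (((W.map (Int.castRingHom ℚ))⁄Qbar : Affine Qbar)).Δ ≠ 0 := by
  intro h
  apply hΔ
  change ((W.map (Int.castRingHom ℚ)).map (algebraMap ℚ Qbar)).Δ = 0 at h
  rw [WeierstrassCurve.map_map, map_Δ] at h
  have h1 : ((W.Δ : ℤ) : Qbar) = 0 := by simpa using h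
  exact_mod_cast h1

theorem card_torG (hΔ : W.Δ ≠ 0) {n : ℕ} (hn : n ≠ 0) : Nat.card (torG W n) = n ^ 2 := by
  rw [← Fermat.Agent.DivPoly.card_torsionBy (W := (W.map (Int.castRingHom ℚ))⁄Qbar) (ΔQ_ne hΔ)
    (n := n) (by exact_mod_cast hn)]
  refine Nat.card_congr (Equiv.subtypeEquivRight fun P => ?_)
  rw [mem_torG, Submodule.mem_torsionBy_iff, Nat.cast_smul_eq_nsmul]

theorem finite_level (hΔ : W.Δ ≠ 0) {n : ℕ} (hn : n ≠ 0) :
    ∃ L : IntermediateField ℚ Qbar, FiniteDimensional ℚ L ∧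
      ∀ σ : GQ, (∀ x ∈ L, σ x = x) → ∀ P ∈ torG W n, σ • P = P := by
  obtain ⟨L, hL, h⟩ := torsion_finite_level (W.map (Int.castRingHom ℚ)) (ΔQ_ne hΔ) hn
  refine ⟨L, hL, fun σ hσ P hP => ?_⟩
  have hP' : P ∈ Submodule.torsionBy ℤ (Pts W) n := by
    rw [Submodule.mem_torsionBy_iff, Nat.cast_smul_eq_nsmul]
    exact hP
  have h1 := congrArg Subtype.val (LinearMap.congr_fun (h σ hσ) ⟨P, hP'⟩)
  exact h1

/-- torsion points of prime power order -/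
theorem dvd_of_zsmul {A : Type*} [AddCommGroup A] {p : ℕ} (hp : p.Prime) {k j : ℕ} {P : A}
    (hk : p ^ k • P = 0) (hj : p ^ j • P ≠ 0) {z : ℤ} (hz : z • P = 0) : ((p ^ j : ℕ) : ℤ) ∣ z := by
  have h1 : addOrderOf P ∣ p ^ k := addOrderOf_dvd_of_nsmul_eq_zero hk
  obtain ⟨i, hi, hi'⟩ := (Nat.dvd_prime_pow hp).mp h1
  have h2 : j ≤ i := by
    by_contra hlt
    push Not at hlt
    apply hj
    apply addOrderOf_dvd_iff_nsmul_eq_zero.mp
    rw [hi']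
    exact pow_dvd_pow p hlt.le
  have h3 : ((addOrderOf P : ℕ) : ℤ) ∣ z := addOrderOf_dvd_iff_zsmul_eq_zero.mpr hz
  rw [hi'] at h3
  exact (Int.natCast_dvd_natCast.mpr (pow_dvd_pow p h2)).trans h3

variable {M lam : ℕ} [hlam : Fact lam.Prime] {D : HData M lam} {S : Set ℕ}
  {B : Type} [CommRing B] [IsLocalRing B]

/-- **comparison** -/
theorem trace_eq_of_torsion (hS : S.Finite) (hM : M ≠ 0) [IsHausdorff (maximalIdeal B) B]
    (hp : (lam : B) ∈ maximalIdeal B) {π : D.TT S →+* B}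
    {T : GQ →* Matrix (Fin 2) (Fin 2) B} (hT : MatCont T) (hπ : FrobCond π T)
    (hΔ : W.Δ ≠ 0) {S' : Set ℕ} (hS' : S'.Finite)
    (ha : ∀ (ℓ : ℕ) (hℓ : ℓ.Prime) (hℓM : ¬ ℓ ∣ M * lam) (hℓS : ℓ ∉ S), ℓ ∉ S' →
      π ⟨D.T ℓ, T_mem hℓ hℓM hℓS⟩ = ((W.apOfModel ℓ : ℤ) : B))
    {σ : GQ} {s c : ℤ} (hc : cycP lam σ = (c : ℤ_[lam]))
    (htor : ∀ j : ℕ, ∃ (k : ℕ) (P : Pts W), lam ^ k • P = 0 ∧ lam ^ j • P ≠ 0 ∧
      σ • σ • P - s • (σ • P) + c • P = 0) : (T σ).trace = (s : B) := by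
  rw [← sub_eq_zero]
  refine IsHausdorff.haus (inferInstance : IsHausdorff (maximalIdeal B) B) _ fun j => ?_
  rw [SModEq.zero, smul_eq_mul, Ideal.mul_top]
  obtain ⟨k, P, hk, hj, hrel⟩ := htor j
  have hjk : j ≤ k := by
    by_contra hlt
    push Not at hlt
    apply hj
    obtain ⟨i, rfl⟩ := Nat.exists_eq_add_of_lt hlt
    rw [show k + i + 1 = (i + 1) + k by ring, pow_add, mul_smul, hk, nsmul_zero]
  have hlk : lam ^ k ≠ 0 := pow_ne_zero _ hlam.out.ne_zero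
  obtain ⟨L₁, hL₁, h₁⟩ := hT k
  obtain ⟨L₂, hL₂, h₂⟩ := cycP_finite lam k
  obtain ⟨L₃, hL₃, h₃⟩ := finite_level hΔ hlk
  have hfin : (S ∪ S' ∪ {ℓ | ℓ ∣ M * lam * W.Δ.natAbs}).Finite := by
    refine (hS.union hS').union ((Set.finite_le_nat (M * lam * W.Δ.natAbs)).subset ?_)
    intro ℓ hℓ
    exact Nat.le_of_dvd (Nat.pos_of_ne_zero (mul_ne_zero
      (mul_ne_zero hM hlam.out.ne_zero) (Int.natAbs_ne_zero.mpr hΔ))) hℓ
  obtain ⟨ℓ, hℓ, hℓS, A, hA, τ, hτ, m, -, hm, -⟩ :=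
    FrobDens.exists_frobenius (L₁ ⊔ (L₂ ⊔ L₃)) _ hfin σ
  have hℓN : ¬ ℓ ∣ M * lam := fun h => hℓS (Or.inr (h.mul_right _))
  have hℓg : W.IsGoodPrimeFor ℓ := fun h =>
    hℓS (Or.inr ((Int.natCast_dvd.mp h).mul_left _))
  have hℓ1 : ℓ ∉ S := fun h => hℓS (Or.inl (Or.inl h))
  have hℓ2 : ℓ ∉ S' := fun h => hℓS (Or.inl (Or.inr h))
  have hℓk : ¬ ℓ ∣ lam ^ k := fun h => hℓN ((hℓ.dvd_of_dvd_pow h).mul_left M)
  obtain ⟨htr, hdet⟩ := hπ ℓ hℓ hℓN hℓ1 A hA τ hτ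
  rw [ha ℓ hℓ hℓN hℓ1 hℓ2] at htr
  have hm1 : ∀ x ∈ L₁, (τ ^ m) x = σ x := fun x hx => hm x (le_sup_left (a := L₁) hx)
  have hm2 : ∀ x ∈ L₂, (τ ^ m) x = σ x := fun x hx =>
    hm x ((le_sup_left.trans le_sup_right : L₂ ≤ L₁ ⊔ (L₂ ⊔ L₃)) hx)
  have hm3 : ∀ x ∈ L₃, (τ ^ m) x = σ x := fun x hx =>
    hm x ((le_sup_right.trans le_sup_right : L₃ ≤ L₁ ⊔ (L₂ ⊔ L₃)) hx)
  set d : ℤ := dk (W.apOfModel ℓ) (ℓ : ℤ) m with hd
  -- the trace
  have e1 : (T σ).trace - (d : B) ∈ maximalIdeal B ^ k := by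
    have h1 : (d : B) = (T (τ ^ m)).trace := by
      rw [map_pow, trace_pow_two, htr, hdet, hd]
      have := map_dk (Int.castRingHom B) (W.apOfModel ℓ) (ℓ : ℤ) m
      rw [eq_intCast, eq_intCast, eq_intCast, Int.cast_natCast] at this
      exact this
    rw [h1]
    exact trace_congr h₁ fun x hx => (hm1 x hx).symm
  -- the action on torsion
  have hPt : P ∈ torG W (lam ^ k) := hk
  have hact : ∀ Q ∈ torG W (lam ^ k), τ ^ m • Q = σ • Q := by
    intro Q hQ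
    have f1 := h₃ (σ⁻¹ * τ ^ m) (fun x hx => by
      rw [AlgEquiv.mul_apply, hm3 x hx]
      exact inv_smul_smul σ x) Q hQ
    rw [mul_smul, inv_smul_eq_iff] at f1
    exact f1
  have e2 : σ • σ • P - d • σ • P + (ℓ : ℤ) ^ m • P = 0 := by
    have f1 := dk_rel τ (W.apOfModel ℓ) (ℓ : ℤ) (torG W (lam ^ k))
      (fun g x hx => smul_mem_torG g hx)
      (fun x hx => ECFrob.frob_rel_torsion W hℓ hℓg hA hτ hℓk hx) m P hPt
    rw [hact P hPt, hact _ (smul_mem_torG σ hPt)] at f1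
    exact f1
  -- the cyclotomic character
  have e3 : PadicInt.toZModPow k (cycP lam (τ ^ m)) = PadicInt.toZModPow k (cycP lam σ) := by
    have f1 : PadicInt.toZModPow k (cycP lam (σ⁻¹ * τ ^ m)) = 1 := by
      refine h₂ _ fun x hx => ?_
      rw [AlgEquiv.mul_apply, hm2 x hx]
      exact inv_smul_smul σ x
    have f2 : τ ^ m = σ * (σ⁻¹ * τ ^ m) := by group
    rw [f2, map_mul, map_mul, f1, mul_one]
  rw [map_pow, cycP_frob lam hℓ hA (ne_p hℓN) hτ, hc, map_intCast, map_pow, map_natCast] at e3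
  have e4 : ((lam ^ k : ℕ) : ℤ) ∣ (ℓ : ℤ) ^ m - c := by
    rw [← ZMod.intCast_zmod_eq_zero_iff_dvd]
    push_cast
    rw [e3, sub_self]
  have e5 : ((ℓ : ℤ) ^ m - c) • P = 0 := by
    obtain ⟨y, hy⟩ := e4
    rw [hy, mul_comm, mul_smul, natCast_zsmul, hk, zsmul_zero]
  have e6 : (d - s) • (σ • P) = 0 := by
    have f1 : (d - s) • (σ • P) = (σ • σ • P - s • (σ • P) + c • P) -
        (σ • σ • P - d • σ • P + (ℓ : ℤ) ^ m • P) + ((ℓ : ℤ) ^ m - c) • P := by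
      rw [sub_smul, sub_smul]
      abel
    rw [f1, hrel, e2, e5, sub_zero, add_zero]
  have e7 : (d - s) • P = 0 := by
    have f1 : σ • ((d - s) • P) = 0 := by
      rw [algEquiv_smul_zsmul]
      exact e6
    have f2 := congrArg (fun x => σ⁻¹ • x) f1
    simp only [inv_smul_smul] at f2
    rw [f2]
    exact ECRed.gal_smul_zero _
  obtain ⟨y, hy⟩ := dvd_of_zsmul hlam.out hk hj e7
  have e8 : (d : B) - (s : B) = (lam : B) ^ j * (y : B) := by
    have := congrArg (Int.cast : ℤ → B) hy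
    push_cast at this
    exact this
  have e9 : (T σ).trace - (s : B) = ((T σ).trace - (d : B)) + ((d : B) - s) := by ring
  rw [e9, e8]
  exact Ideal.add_mem _ (Ideal.pow_le_pow_right hjk e1)
    (Ideal.mul_mem_right _ _ (Ideal.pow_mem_pow hp j))

end Fermat.Agent.S58X
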