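import Fermat.Agent.S58X.Cmp
import Fermat.Agent.CondLev.Fixed

/-!
# Torsion points at good and multiplicative places
-/

set_option autoImplicit false
set_option linter.style.haveILetI false
set_option maxHeartbeats 400000

noncomputable section

namespace Fermat.Agent.S58X

open IsLocalRing Fermat.Agent.GalRep Fermat.Agent.ECRed Fermat.Agent.ECFrob Fermat.Agent.CondLev
open WeierstrassCurve WeierstrassCurve.Affine WeierstrassCurve.Affine.Point

local notation "Qbar" => AlgebraicClosure ℚ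
local notation "GQ" => Qbar ≃ₐ[ℚ] Qbar

attribute [local instance] Fermat.Agent.Frob.isAlgebraic_Qbar

variable {W : WeierstrassCurve ℤ} {lam : ℕ} [hlam : Fact lam.Prime]

theorem torG_finite' (hΔ : W.Δ ≠ 0) {n : ℕ} (hn : n ≠ 0) : Finite (torG W n) :=
  Nat.finite_of_card_ne_zero (by rw [card_torG hΔ hn]; exact pow_ne_zero 2 hn)

/-- a torsion point of large order in a large set of torsion points -/
theorem exists_pt_of_card (hΔ : W.Δ ≠ 0) {j : ℕ} (H : Finset (Pts W))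
    (hH : lam ^ (2 * j) < H.card) : ∃ P ∈ H, lam ^ j • P ≠ 0 := by
  by_contra hcon
  push Not at hcon
  have hn : lam ^ j ≠ 0 := pow_ne_zero _ hlam.out.ne_zero
  haveI := torG_finite' hΔ hn
  have h1 : (H : Set (Pts W)) ⊆ (torG W (lam ^ j) : Set (Pts W)) := fun P hP => hcon P hP
  have hfin : (torG W (lam ^ j) : Set (Pts W)).Finite := Set.toFinite _
  have h2 := Set.ncard_le_ncard h1 hfin
  rw [Set.ncard_coe_finset] at h2
  have h3 : (torG W (lam ^ j) : Set (Pts W)).ncard = (lam ^ j) ^ 2 := by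
    rw [← Nat.card_coe_set_eq]
    exact card_torG hΔ hn
  rw [h3, ← pow_mul, mul_comm j 2] at h2
  omega

/-- the finset of torsion points -/
theorem exists_finset (hΔ : W.Δ ≠ 0) {n : ℕ} (hn : n ≠ 0) :
    ∃ T : Finset (Pts W), (∀ P, P ∈ T ↔ n • P = 0) ∧ T.card = n ^ 2 := by
  haveI := torG_finite' hΔ hn
  have hfin : (torG W n : Set (Pts W)).Finite := Set.toFinite _
  refine ⟨hfin.toFinset, fun P => ?_, ?_⟩
  · rw [Set.Finite.mem_toFinset]
    exact Iff.rfl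
  · rw [← Set.ncard_eq_toFinset_card _ hfin, ← Nat.card_coe_set_eq]
    exact card_torG hΔ hn

theorem exists_pt (hΔ : W.Δ ≠ 0) (j : ℕ) :
    ∃ P : Pts W, lam ^ (j + 1) • P = 0 ∧ lam ^ j • P ≠ 0 := by
  obtain ⟨T, hT, hc⟩ := exists_finset hΔ (pow_ne_zero (j + 1) hlam.out.ne_zero)
  obtain ⟨P, hP, h⟩ := exists_pt_of_card (lam := lam) hΔ (j := j) T (by
    rw [hc, ← pow_mul]
    exact Nat.pow_lt_pow_right hlam.out.one_lt (by omega))
  exact ⟨P, (hT P).mp hP, h⟩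

section Good

open scoped Pointwise in
/-- inertia acts trivially on the reduction -/
theorem redA_smul_inertia {q : ℕ} [Fact q.Prime] {A : ValuationSubring Qbar}
    (hA : A.LiesOverPrime q) (hW : W.IsGoodPrimeFor q)
    {σ : GQ} (hσ : σ ∈ A.inertiaSubgroupIn ℚ) (P : Pts W) :
    redA hA hW (σ • P : Pts W) = redA hA hW P := by
  obtain ⟨τ, hτ, rfl⟩ := hσ
  have hstab : (τ : GQ) • A = A := τ.2
  have hmem : ∀ x : Qbar, ((τ : GQ) : Qbar →+* Qbar) x ∈ (resData A).A ↔ x ∈ (resData A).A := by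
    intro x
    change (τ : GQ) x ∈ A ↔ x ∈ A
    constructor
    · intro h
      have h1 : (τ : GQ) • x ∈ (τ : GQ) • A := by rw [hstab]; exact h
      exact (ValuationSubring.smul_mem_pointwise_smul_iff).1 h1
    · intro h
      have h1 : (τ : GQ) • x ∈ (τ : GQ) • A :=
        (ValuationSubring.smul_mem_pointwise_smul_iff).2 h
      rw [hstab] at h1; exact h1
  have hid : (Wr A W).map (RingHom.id (kA A)) = Wr A W := WeierstrassCurve.map_id _
  have h1 := (resData A).rhom_pmap (hΔA hA hW) (hKA A W) (hkA A W) ((τ : GQ) : Qbar →+* Qbar)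
    (RingHom.id _) hmem (by
      intro a
      let b : A := ⟨(a : Qbar), a.2⟩
      have h1 : τ • (IsLocalRing.residue A b) = IsLocalRing.residue A b :=
        DFunLike.congr_fun (MonoidHom.mem_ker.mp hτ) (IsLocalRing.residue A b)
      rw [← IsLocalRing.ResidueField.residue_smul] at h1
      change algebraMap (IsLocalRing.ResidueField A) (kA A) (IsLocalRing.residue A (τ • b)) =
        algebraMap (IsLocalRing.ResidueField A) (kA A) (IsLocalRing.residue A b)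
      rw [h1]) (hσW _) hid P
  have key : ∀ R : (Wr A W).toAffine.Point, pmap (RingHom.id (kA A)) hid R = R := by
    rintro (_ | ⟨x, y, hP⟩)
    · exact pmap_zero _ _
    · obtain ⟨h', e⟩ := pmap_some (RingHom.id (kA A)) hid hP
      exact e
  rw [pmap_eq_smul] at h1
  exact h1.trans (key _)

theorem smul_eq_of_good {q : ℕ} (hq : q.Prime) {A : ValuationSubring Qbar}
    (hA : A.LiesOverPrime q) (hW : W.IsGoodPrimeFor q)
    {σ : GQ} (hσ : σ ∈ A.inertiaSubgroupIn ℚ) {n : ℕ} (hn : ¬ q ∣ n) {P : Pts W}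
    (hP : n • P = 0) : σ • P = P := by
  haveI : Fact q.Prime := ⟨hq⟩
  have h1 : n • (σ • P - P) = 0 := by
    rw [nsmul_sub, ← gal_nsmul, hP, ECRed.gal_smul_zero, sub_self]
  have h2 : redA hA hW (σ • P - P : Pts W) = 0 := by
    have h3 : redA hA hW (σ • P - P : Pts W) = redA hA hW (σ • P : Pts W) - redA hA hW P := by
      erw [map_sub]
    rw [h3, redA_smul_inertia hA hW hσ, sub_self]
  exact sub_eq_zero.mp (redA_injective hA hW hn h1 h2)

end Good

section Mult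

variable {q : ℕ} {A : ValuationSubring Qbar}

theorem intCoeff (hq : q.Prime) (hA : A.LiesOverPrime q) :
    IntCoeff (W.map (Int.castRingHom ℚ)) (ordFnAt A hq hA) := by
  have key : ∀ z : ℤ, (ordFnAt A hq hA).Ge 0 (z : Qbar) := fun z => OrdFn.ge_intCast z
  refine ⟨?_, ?_, ?_, ?_, ?_⟩
  · change (ordFnAt A hq hA).Ge 0 (WQ W).a₁
    simpa using key W.a₁
  · change (ordFnAt A hq hA).Ge 0 (WQ W).a₂
    simpa using key W.a₂
  · change (ordFnAt A hq hA).Ge 0 (WQ W).a₃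
    simpa using key W.a₃
  · change (ordFnAt A hq hA).Ge 0 (WQ W).a₄
    simpa using key W.a₄
  · change (ordFnAt A hq hA).Ge 0 (WQ W).a₆
    simpa using key W.a₆

/-- **multiplicative places**: inertia fixes points of large order -/
theorem exists_fixed_of_mult (hq : q.Prime) (hA : A.LiesOverPrime q) (hΔ : W.Δ ≠ 0)
    (hqΔ : (q : ℤ) ∣ W.Δ) (hqc : ¬ (q : ℤ) ∣ W.c₄) (hlq : q ≠ lam) (hlam2 : lam ≠ 2)
    (j : ℕ) : ∃ P : Pts W, lam ^ (2 * j + 1) • P = 0 ∧ lam ^ j • P ≠ 0 ∧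
      ∀ σ ∈ A.inertiaSubgroupIn ℚ, σ • P = P := by
  classical
  set v := ordFnAt A hq hA with hv
  have hc4 : W.c₄ ≠ 0 := fun h => hqc (h ▸ dvd_zero _)
  let r : ℚ := (18 * (W.b₆ : ℚ) - W.b₂ * W.b₄) / (W.c₄ : ℚ)
  let κ₀ := KummerLine.ofCurve ((W.map (Int.castRingHom ℚ))⁄Qbar)
  have hb2 : κ₀.b₂ = ((W.b₂ : ℤ) : Qbar) := by
    change (WQ W).b₂ = _
    simp [WQ]
  have hb4 : κ₀.b₄ = ((W.b₄ : ℤ) : Qbar) := by
    change (WQ W).b₄ = _
    simp [WQ]
  have hb6 : κ₀.b₆ = ((W.b₆ : ℤ) : Qbar) := by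
    change (WQ W).b₆ = _
    simp [WQ]
  have hb8 : κ₀.b₈ = ((W.b₈ : ℤ) : Qbar) := by
    change (WQ W).b₈ = _
    simp [WQ]
  have hc : κ₀.b₂ ^ 2 - 24 * κ₀.b₄ = ((W.c₄ : ℤ) : Qbar) := by
    rw [hb2, hb4, WeierstrassCurve.c₄]
    push_cast
    ring
  have hdisc : κ₀.disc = ((W.Δ : ℤ) : Qbar) := by
    rw [KummerLine.disc, hb2, hb4, hb6, hb8, WeierstrassCurve.Δ]
    push_cast
    ring
  have hnode : nodeX κ₀ = algebraMap ℚ Qbar r := by
    rw [nodeX, hc, hb2, hb4, hb6]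
    simp only [r, map_div₀, map_sub, map_mul, map_ofNat, map_intCast]
  have hvc : v.Eq 0 (κ₀.b₂ ^ 2 - 24 * κ₀.b₄) := by
    rw [hc]
    have h0 : ((W.c₄ : ℤ) : Qbar) ≠ 0 := by exact_mod_cast hc4
    have h1 : v.Ge 0 ((W.c₄ : ℤ) : Qbar) := OrdFn.ge_intCast _
    have h2 : ¬ v.Gt 0 ((W.c₄ : ℤ) : Qbar) := by
      intro h
      have h3 := (ordFnAt_gt A hq hA _).1 h
      rw [ValuationSubring.mem_nonunits_iff] at h3
      rw [val_int_of_coprime A hq hA hqc] at h3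
      exact lt_irrefl _ h3
    rw [OrdFn.not_gt_iff] at h2
    rw [OrdFn.ge_iff h0] at h1
    exact ⟨h0, le_antisymm h2.2 h1⟩
  have hΔ0 : ((W.Δ : ℤ) : Qbar) ≠ 0 := by exact_mod_cast hΔ
  have hvΔ : v.Gt 0 ((W.Δ : ℤ) : Qbar) := by
    obtain ⟨z, hz⟩ := hqΔ
    rw [hz, Int.cast_mul]
    have h1 : v.Gt 0 (((q : ℤ) : ℤ) : Qbar) := by
      rw [Int.cast_natCast]
      exact (ordFnAt_gt A hq hA _).2 hA
    have h2 : v.Ge 0 ((z : ℤ) : Qbar) := OrdFn.ge_intCast _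
    simpa using h1.mul_ge h2
  obtain ⟨m, hm, hm'⟩ : ∃ m : ℝ, 0 < m ∧ v.Eq (2 * m) κ₀.disc := by
    refine ⟨v.ord ((W.Δ : ℤ) : Qbar) / 2, ?_, ?_⟩
    · rw [OrdFn.gt_iff hΔ0] at hvΔ
      linarith
    · rw [hdisc]
      exact ⟨hΔ0, by ring⟩
  have hmult : (κ₀.translate (nodeX κ₀)).MultAt v m :=
    multAt_node (integralK (W := W) hq hA) hm hvc hm'
  have hr : v.Ge 0 (algebraMap ℚ Qbar r) := by
    rw [← hnode, nodeX]
    have h1 : v.Ge 0 (18 * κ₀.b₆ - κ₀.b₂ * κ₀.b₄) := by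
      rw [hb2, hb4, hb6]
      have e : (18 * ((W.b₆ : ℤ) : Qbar) - ((W.b₂ : ℤ) : Qbar) * ((W.b₄ : ℤ) : Qbar)) =
          ((18 * W.b₆ - W.b₂ * W.b₄ : ℤ) : Qbar) := by push_cast; ring
      rw [e]
      exact OrdFn.ge_intCast _
    have h2 := h1.mul hvc.inv.ge
    rw [div_eq_mul_inv]
    simpa using h2
  have hn : ¬ q ∣ lam ^ (2 * j + 1) := fun h =>
    hlq ((Nat.prime_dvd_prime_iff_eq hq hlam.out).mp (hq.dvd_of_dvd_pow h))
  have hvn : v.Eq 0 ((lam ^ (2 * j + 1) : ℕ) : Qbar) := nat_unit hq hA hn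
  have hodd : Odd (lam ^ (2 * j + 1)) := (hlam.out.odd_of_ne_two hlam2).pow
  obtain ⟨T, hT, hTc⟩ := exists_finset hΔ (pow_ne_zero (2 * j + 1) hlam.out.ne_zero)
  have hcard := card_comp_zero hmult hvn hodd T hT hTc
  obtain ⟨P, hP, hPj⟩ := exists_pt_of_card (lam := lam) hΔ (j := j)
    (T.filter fun P => (κ₀.translate (nodeX κ₀)).comp v P = 0) (by
      refine lt_of_lt_of_le (Nat.pow_lt_pow_right hlam.out.one_lt (by omega : 2 * j < 2 * j + 1)) ?_
      refine hcard.trans (le_of_eq ?_)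
      congr)
  rw [Finset.mem_filter] at hP
  have hPt := (hT P).mp hP.1
  refine ⟨P, hPt, hPj, fun σ hσ => ?_⟩
  refine fixed_comp_zero' (W := W.map (Int.castRingHom ℚ)) (v := v) (intCoeff hq hA)
    (κ := κ₀.translate (nodeX κ₀)) (r := r) (by rw [hnode]) hr hmult (fun z hz => ?_) hvn hodd
    hPt hP.2
  exact (ordFnAt_gt A hq hA _).2 (inertia_sub A hσ ((ordFnAt_ge A hq hA z).1 hz))

end Mult

end Fermat.Agent.S58X
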