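import Fermat.Agent.S58X.Tor
import Fermat.Agent.SSMod.S35Final
import Fermat.Agent.CarayolX.Main
import Fermat.Prelude.Def_WeierstrassCurve_ConductorLevel

/-!
# The level of the newform attached to a semistable curve
-/

set_option autoImplicit false
set_option linter.style.haveILetI false
set_option maxHeartbeats 400000

noncomputable section

namespace Fermat.Agent.S58X

open Fermat.Agent.DefRing IsLocalRing Matrix Fermat.Agent.GalRep Fermat.Agent.GalRep.HData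
open CuspForm Polynomial Fermat.Agent.AnJac Fermat.Agent.HeckeQ
open ModularFormClass (qCoeff)
open WeierstrassCurve

local notation "Qbar" => AlgebraicClosure ℚ
local notation "GQ" => Qbar ≃ₐ[ℚ] Qbar

section Count

variable {q : ℕ} [hq : Fact q.Prime] (E : WeierstrassCurve (ZMod q))

/-- the trivial upper bound for the number of points -/
theorem card_point_le : Nat.card E.toAffine.Point ≤ 2 * q + 1 := by
  classical
  letI : Fintype E.toAffine.Point := Fintype.ofFinite _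
  rw [Nat.card_eq_fintype_card, ← Finset.card_univ]
  let f : E.toAffine.Point → ZMod q := fun P => match P with
    | .zero => 0
    | .some x _ _ => x
  have h1 : (Finset.univ.erase (0 : E.toAffine.Point)).card ≤
      2 * (Finset.univ : Finset (ZMod q)).card := by
    refine Finset.card_le_mul_card_image_of_maps_to (f := f) (fun _ _ => Finset.mem_univ _) 2 ?_
    intro x _
    by_cases hne : ((Finset.univ.erase (0 : E.toAffine.Point)).filter (fun P => f P = x)).Nonempty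
    · obtain ⟨P₁, hP₁⟩ := hne
      rw [Finset.mem_filter, Finset.mem_erase] at hP₁
      have hsub : ((Finset.univ.erase (0 : E.toAffine.Point)).filter (fun P => f P = x)) ⊆
          {P₁, -P₁} := by
        intro P hP
        rw [Finset.mem_filter, Finset.mem_erase] at hP
        rcases P with _ | ⟨x₂, y₂, h₂⟩
        · exact absurd rfl hP.1.1
        rcases P₁ with _ | ⟨x₁, y₁, h₁⟩
        · exact absurd rfl hP₁.1.1
        have e1 : x₁ = x := hP₁.2
        have e2 : x₂ = x := hP.2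
        rw [Finset.mem_insert, Finset.mem_singleton, WeierstrassCurve.Affine.Point.neg_some]
        rcases WeierstrassCurve.Affine.Y_eq_of_X_eq h₂.1 h₁.1 (e2.trans e1.symm) with h | h
        · left
          simp only [Affine.Point.some.injEq]
          exact ⟨e2.trans e1.symm, h⟩
        · right
          simp only [Affine.Point.some.injEq]
          exact ⟨e2.trans e1.symm, h⟩
      exact (Finset.card_le_card hsub).trans Finset.card_le_two
    · rw [Finset.not_nonempty_iff_eq_empty] at hne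
      rw [hne, Finset.card_empty]
      exact Nat.zero_le _
  rw [Finset.card_erase_of_mem (Finset.mem_univ _), Finset.card_univ (α := ZMod q),
    ZMod.card] at h1
  omega

theorem abs_trace_le : |E.traceOfFrobenius| ≤ (q : ℤ) := by
  have h1 := card_point_le E
  have h2 : 0 < Nat.card E.toAffine.Point := Nat.card_pos
  rw [traceOfFrobenius, WeierstrassCurve.card, Nat.card_zmod, abs_le]
  constructor <;> omega

end Count

/-- an odd prime different from `q` -/
theorem exists_lam (q : ℕ) : ∃ lam : ℕ, lam.Prime ∧ lam ≠ 2 ∧ q ≠ lam := by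
  by_cases h : q = 3
  · exact ⟨5, by norm_num, by norm_num, by omega⟩
  · exact ⟨3, by norm_num, by norm_num, h⟩

/-- the package of a `lam`-adic representation attached to a newform -/
structure Pack {M : ℕ} [NeZero M] (g : CuspForm (CongruenceSubgroup.Gamma0 M) 2)
    (lam : ℕ) [Fact lam.Prime] (B : Type) [CommRing B] [IsDomain B] [IsLocalRing B]
    [CharZero B] [IsAdicComplete (maximalIdeal B) B] where
  hp : (lam : B) ∈ maximalIdeal B
  chig : CuspForm.heckeAlgebra M 2 (↑(∅ : Finset ℕ) : Set ℕ) →+* ℂ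
  hchig : ∀ (ℓ : ℕ) (hℓ : ℓ.Prime) (hℓM : ¬ ℓ ∣ M) (hℓS : ℓ ∉ (↑(∅ : Finset ℕ) : Set ℕ)),
      chig (CuspForm.heckeAlgebra.T hℓ hℓM hℓS) = ModularFormClass.qCoeff g ℓ
  iota : chig.range →+* B
  inj : Function.Injective iota
  T : GQ →* Matrix (Fin 2) (Fin 2) B
  hT : MatCont T
  hfr : FrobCond (D := hdata M lam (esHyp M lam)) (S := (↑(∅ : Finset ℕ) : Set ℕ))
      ((iota.comp chig.rangeRestrict).comp
        (HData.Phi (↑(∅ : Finset ℕ) : Set ℕ) (hdata_link (esHyp M lam)))) T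

theorem exists_pack {M : ℕ} [NeZero M] {g : CuspForm (CongruenceSubgroup.Gamma0 M) 2}
    (hg : g.IsNewform) (lam : ℕ) [Fact lam.Prime] :
    ∃ (B : Type) (_ : CommRing B) (_ : IsDomain B) (_ : IsLocalRing B) (_ : CharZero B)
      (_ : IsAdicComplete (maximalIdeal B) B), Nonempty (Pack g lam B) := by
  let S : Set ℕ := (↑(∅ : Finset ℕ) : Set ℕ)
  let chig : heckeAlgebra M 2 S →+* ℂ := Newform.eigHom g hg.1 S
  have hchig : ∀ (ℓ : ℕ) (hℓ : ℓ.Prime) (hℓM : ¬ ℓ ∣ M) (hℓS : ℓ ∉ S),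
      chig (heckeAlgebra.T hℓ hℓM hℓS) = qCoeff g ℓ := by
    intro ℓ hℓ hℓM hℓS
    rw [← Newform.eigHom_heckeOp hg.1 hℓ hℓS]
    congr 1
    apply Subtype.ext
    exact (DSLift.heckeOp_of_not_dvd hℓ hℓM).symm
  haveI : Module.Finite ℤ chig.range := by
    refine Module.Finite.of_surjective (M := heckeAlgebra M 2 S)
      (chig.rangeRestrict.toIntAlgHom.toLinearMap) ?_
    exact chig.rangeRestrict_surjective
  haveI : CharZero chig.range := ⟨fun a b h => by
    have h1 := congrArg chig.range.subtype h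
    rw [map_natCast, map_natCast] at h1
    exact_mod_cast h1⟩
  obtain ⟨O', j1, j2, j3, j4, j5, j6, hlamO, ⟨iota₀⟩⟩ := exists_coeff_ring lam chig.range
  obtain ⟨B, i1, i2, i3, i4, i5, i6, i7, i8, i9, hinj, T, hT, hfr, -⟩ :=
    HData.exists_adic
      (D := hdata M lam (esHyp M lam))
      (S := S) (Finset.finite_toSet _) (NeZero.ne M) hlamO
      ((iota₀.comp chig.rangeRestrict).comp (HData.Phi S (hdata_link (esHyp M lam))))
  have hpB : (lam : B) ∈ maximalIdeal B := by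
    have := map_nonunit (algebraMap O' B) (lam : O') hlamO
    rwa [map_natCast] at this
  refine ⟨B, i1, i2, inferInstance, i6, i4, ⟨⟨hpB, chig, hchig, (algebraMap O' B).comp iota₀, ?_,
    T, hT, hfr⟩⟩⟩
  haveI : Algebra.IsIntegral ℤ chig.range := inferInstance
  rw [RingHom.injective_iff_ker_eq_bot]
  refine Ideal.eq_bot_of_comap_eq_bot (R := ℤ) ?_
  rw [eq_bot_iff]
  intro n hn
  rw [Ideal.mem_comap, RingHom.mem_ker, eq_intCast, map_intCast] at hn
  exact_mod_cast hn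

section Cases

variable {M : ℕ} [NeZero M] {g : CuspForm (CongruenceSubgroup.Gamma0 M) 2}
  {W : WeierstrassCurve ℤ} {lam : ℕ} [hlam : Fact lam.Prime]
  {B : Type} [CommRing B] [IsDomain B] [IsLocalRing B] [CharZero B]
  [IsAdicComplete (maximalIdeal B) B]

/-- the value of the character at a Hecke operator -/
theorem Pack.val (P : Pack g lam B) {ℓ : ℕ} (hℓ : ℓ.Prime) (hℓM : ¬ ℓ ∣ M * lam)
    (hℓS : ℓ ∉ (↑(∅ : Finset ℕ) : Set ℕ)) {A : ValuationSubring Qbar} (hA : A.LiesOverPrime ℓ)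
    {τ : GQ} (hτ : A.IsFrobeniusAt τ ℓ) {a : ℤ} : ((P.T τ).trace = (a : B) ↔
      qCoeff g ℓ = (a : ℂ)) := by
  have h1 := (P.hfr ℓ hℓ hℓM hℓS A hA τ hτ).1
  rw [RingHom.comp_apply, HData.Phi_T _ _ hℓ hℓM hℓS, RingHom.comp_apply] at h1
  rw [h1, ← map_intCast P.iota, P.inj.eq_iff, ← P.hchig ℓ hℓ (fun h => hℓM (h.mul_right lam)) hℓS]
  constructor
  · intro h
    exact congrArg Subtype.val h
  · intro h
    exact Subtype.ext h

/-- the hypothesis of the comparison theorem -/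
theorem Pack.ha (P : Pack g lam B) {S' : Set ℕ}
    (ha : ∀ ℓ : ℕ, ℓ.Prime → ℓ ∉ S' → qCoeff g ℓ = ((W.apOfModel ℓ : ℤ) : ℂ)) :
    ∀ (ℓ : ℕ) (hℓ : ℓ.Prime) (hℓM : ¬ ℓ ∣ M * lam) (hℓS : ℓ ∉ (↑(∅ : Finset ℕ) : Set ℕ)),
      ℓ ∉ S' → ((P.iota.comp P.chig.rangeRestrict).comp
        (HData.Phi (↑(∅ : Finset ℕ) : Set ℕ) (hdata_link (esHyp M lam))))
        ⟨(hdata M lam (esHyp M lam)).T ℓ, T_mem hℓ hℓM hℓS⟩ = ((W.apOfModel ℓ : ℤ) : B) := by
  intro ℓ hℓ hℓM hℓS hℓS'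
  rw [RingHom.comp_apply, HData.Phi_T _ _ hℓ hℓM hℓS, RingHom.comp_apply, ← map_intCast P.iota]
  congr 1
  apply Subtype.ext
  show P.chig _ = _
  rw [P.hchig ℓ hℓ (fun h => hℓM (h.mul_right lam)) hℓS, ha ℓ hℓ hℓS']
  rfl

variable (hΔ : W.Δ ≠ 0) {S' : Set ℕ} (hS' : S'.Finite)
  (ha : ∀ ℓ : ℕ, ℓ.Prime → ℓ ∉ S' → qCoeff g ℓ = ((W.apOfModel ℓ : ℤ) : ℂ))

include hΔ hS' ha

/-- comparison at a Frobenius element of a good prime -/
theorem Pack.frob (P : Pack g lam B) {q : ℕ} (hq : q.Prime) (hql : q ≠ lam)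
    (hW : W.IsGoodPrimeFor q) {A : ValuationSubring Qbar} (hA : A.LiesOverPrime q) {σ : GQ}
    (hσ : A.IsFrobeniusAt σ q) : (P.T σ).trace = ((W.apOfModel q : ℤ) : B) := by
  refine trace_eq_of_torsion (D := hdata M lam (esHyp M lam)) (Finset.finite_toSet _) (NeZero.ne M)
    P.hp P.hT P.hfr hΔ hS' (P.ha ha) (c := (q : ℤ)) (by
      rw [cycP_frob lam hq hA hql hσ, Int.cast_natCast]) fun j => ?_
  obtain ⟨Q, hQ, hQ'⟩ := exists_pt (lam := lam) hΔ j
  refine ⟨j + 1, Q, hQ, hQ', ?_⟩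
  refine ECFrob.frob_rel_torsion W hq hW hA hσ (n := lam ^ (j + 1)) ?_ hQ
  exact fun h => hql ((Nat.prime_dvd_prime_iff_eq hq hlam.out).mp (hq.dvd_of_dvd_pow h))

/-- comparison on inertia -/
theorem Pack.inertia (P : Pack g lam B) (hss : W.IsSemistableModel) {q : ℕ} (hq : q.Prime)
    (hql : q ≠ lam) (hlam2 : lam ≠ 2) {A : ValuationSubring Qbar} (hA : A.LiesOverPrime q) {σ : GQ}
    (hσ : σ ∈ A.inertiaSubgroupIn ℚ) : (P.T σ).trace = 2 := by
  have key : (P.T σ).trace = ((2 : ℤ) : B) := by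
    refine trace_eq_of_torsion (D := hdata M lam (esHyp M lam)) (Finset.finite_toSet _)
      (NeZero.ne M) P.hp P.hT P.hfr hΔ hS' (P.ha ha) (c := (1 : ℤ)) (by
        rw [cycP_inertia lam hq hA hql hσ, Int.cast_one]) fun j => ?_
    have hrel : ∀ Q : Pts W, σ • Q = Q → σ • σ • Q - (2 : ℤ) • (σ • Q) + (1 : ℤ) • Q = 0 := by
      intro Q h
      rw [h, h, two_zsmul, one_zsmul]
      abel
    by_cases hW : W.IsGoodPrimeFor q
    · obtain ⟨Q, hQ, hQ'⟩ := exists_pt (lam := lam) hΔ j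
      refine ⟨j + 1, Q, hQ, hQ', hrel Q ?_⟩
      refine smul_eq_of_good hq hA hW hσ (n := lam ^ (j + 1)) ?_ hQ
      exact fun h => hql ((Nat.prime_dvd_prime_iff_eq hq hlam.out).mp (hq.dvd_of_dvd_pow h))
    · rw [IsGoodPrimeFor, not_not] at hW
      obtain ⟨Q, hQ, hQ', hQ''⟩ := exists_fixed_of_mult (lam := lam) hq hA hΔ hW (hss q hq hW)
        hql hlam2 j
      exact ⟨2 * j + 1, Q, hQ, hQ', hrel Q (hQ'' σ hσ)⟩
  rw [key]
  norm_num

/-- coefficients at good primes outside the level -/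
theorem qCoeff_eq (hg : g.IsNewform) {q : ℕ} (hq : q.Prime) (hqM : ¬ q ∣ M)
    (hW : W.IsGoodPrimeFor q) : qCoeff g q = ((W.apOfModel q : ℤ) : ℂ) := by
  obtain ⟨lam, hlam, hlam2, hql⟩ := exists_lam q
  haveI : Fact lam.Prime := ⟨hlam⟩
  obtain ⟨B, i1, i2, i3, i4, i5, ⟨P⟩⟩ := exists_pack hg lam
  obtain ⟨A, hA, σ, hσ⟩ := Frob.exists_place_frobenius hq
  have hqMl : ¬ q ∣ M * lam := by
    intro h
    rcases hq.dvd_mul.mp h with h | h
    · exact hqM h
    · exact hql ((Nat.prime_dvd_prime_iff_eq hq hlam).mp h)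
  exact (P.val hq hqMl (by simp) hA hσ).mp (P.frob hΔ hS' ha hq hql hW hA hσ)

/-- primes exactly dividing the level are bad -/
theorem bad_of_exact (hg : g.IsNewform) {q : ℕ} (hq : q.Prime) (hqM : q ∣ M) (hq2 : ¬ q ^ 2 ∣ M) :
    (q : ℤ) ∣ W.Δ := by
  by_contra hW
  obtain ⟨lam, hlam, hlam2, hql⟩ := exists_lam q
  haveI : Fact lam.Prime := ⟨hlam⟩
  haveI : Fact q.Prime := ⟨hq⟩
  obtain ⟨B, i1, i2, i3, i4, i5, ⟨P⟩⟩ := exists_pack hg lam
  obtain ⟨A, hA, σ, hσ⟩ := Frob.exists_place_frobenius hq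
  have h1 := P.frob hΔ hS' ha hq hql hW hA hσ
  have h2 := SSMod.trace_newform SSMod.jl23 hg ∅ P.hp P.chig P.hchig P.iota P.hT P.hfr hq hql hqM
    hq2 hA hσ
  have h3 := abs_trace_le (W.reductionMod q)
  rw [abs_le] at h3
  change -(q : ℤ) ≤ W.apOfModel q ∧ W.apOfModel q ≤ q at h3
  rw [h1] at h2
  rcases h2 with h2 | h2
  · have h4 : W.apOfModel q = (q : ℤ) + 1 := by
      have : ((W.apOfModel q : ℤ) : B) = (((q : ℤ) + 1 : ℤ) : B) := by rw [h2]; push_cast; rfl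
      exact_mod_cast this
    omega
  · have h4 : W.apOfModel q = -((q : ℤ) + 1) := by
      have : ((W.apOfModel q : ℤ) : B) = ((-((q : ℤ) + 1) : ℤ) : B) := by
        rw [h2]; push_cast; rfl
      exact_mod_cast this
    omega

/-- the square of a prime does not exactly divide the level -/
theorem factorization_ne_two (HC : Carayol.CarayolCore) (hg : g.IsNewform)
    (hss : W.IsSemistableModel) {q : ℕ} (hq : q.Prime) : M.factorization q ≠ 2 := by
  intro h2
  obtain ⟨lam, hlam, hlam2, hql⟩ := exists_lam q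
  haveI : Fact lam.Prime := ⟨hlam⟩
  obtain ⟨B, i1, i2, i3, i4, i5, ⟨P⟩⟩ := exists_pack hg lam
  obtain ⟨A, hA, -⟩ := Frob.exists_place_frobenius hq
  exact CarayolX.not_unipotent HC hg ∅ P.hp P.chig P.hchig P.iota P.hT P.hfr hq hql h2 hA
    fun σ hσ => P.inertia hΔ hS' ha hss hq hql hlam2 hA hσ

end Cases

/-- eigenforms at multiples of the level -/
theorem exists_eigenform_of_dvd {M N : ℕ} [NeZero M] [NeZero N]
    {g : CuspForm (CongruenceSubgroup.Gamma0 M) 2} (hg : g.IsNormalizedEigenform) (h : M ∣ N) :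
    ∃ f : CuspForm (CongruenceSubgroup.Gamma0 N) 2, f.IsNormalizedEigenform ∧
      ∀ ℓ : ℕ, ℓ.Prime → ¬ ℓ ∣ N → qCoeff f ℓ = qCoeff g ℓ := by
  have h1 : M * 1 ∣ N := by rwa [mul_one]
  have h2 := Newform.bL_mem_Eig one_ne_zero h1 dvd_rfl (Newform.mem_Eig_chi hg N)
  have h3 : Newform.Eig N N (Newform.chi g N) ≠ ⊥ := by
    intro h0
    rw [h0, Submodule.mem_bot] at h2
    have h4 : g = 0 := Newform.bL_injective one_ne_zero h1 (h2.trans (map_zero _).symm)
    have h5 := hg.qCoeff_one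
    rw [h4] at h5
    have h6 := Newform.qCoeff_zero_fun 1
    exact one_ne_zero (h5.symm.trans h6)
  obtain ⟨f, hf, -, hf'⟩ := Newform.exists_eigenform_of_Eig h3
  exact ⟨f, hf, fun ℓ hℓ hℓN => hf' ⟨ℓ, hℓ, hℓN⟩⟩

/-- **S58** from Carayol's theorem -/
theorem s58_of (HC : Carayol.CarayolCore) (W : WeierstrassCurve ℤ) (hss : W.IsSemistableModel)
    (N : ℕ) (hN : W.IsModularModelOfLevel N)
    (hbad : ∀ ℓ : ℕ, ℓ.Prime → (ℓ : ℤ) ∣ W.Δ → ℓ ∣ N)
    (hN3 : ∀ q : ℕ, q.Prime → ¬ q ^ 3 ∣ N) :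
    W.IsModularModelOfLevel W.conductorLevel := by
  have hN0 : N ≠ 0 := by
    rintro rfl
    exact hN3 2 Nat.prime_two (dvd_zero _)
  haveI : NeZero N := ⟨hN0⟩
  have hΔ : W.Δ ≠ 0 := by
    intro h0
    obtain ⟨ℓ, hℓN, hℓ⟩ := Nat.exists_infinite_primes (N + 1)
    have h1 := hbad ℓ hℓ (h0 ▸ dvd_zero _)
    have := Nat.le_of_dvd (Nat.pos_of_ne_zero hN0) h1
    omega
  obtain ⟨f, hf, hfW⟩ := hN
  obtain ⟨M, hM, g, hg, hgf⟩ := Newform.exists_newform hf
  haveI : NeZero M := ⟨fun h => hN0 (Nat.eq_zero_of_zero_dvd (h ▸ hM))⟩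
  have ha : ∀ ℓ : ℕ, ℓ.Prime → ℓ ∉ {ℓ | ℓ ∣ N} → qCoeff g ℓ = ((W.apOfModel ℓ : ℤ) : ℂ) := by
    intro ℓ hℓ hℓN
    have hℓN' : ¬ ℓ ∣ N := hℓN
    rw [hgf ℓ hℓ hℓN', hfW ℓ hℓ (fun h => hℓN' (hbad ℓ hℓ h)) hℓN']
  have hfin : {ℓ | ℓ ∣ N}.Finite := (Set.finite_le_nat N).subset fun ℓ hℓ =>
    Nat.le_of_dvd (Nat.pos_of_ne_zero hN0) hℓ
  have hsq : ∀ q : ℕ, q.Prime → ¬ q ^ 2 ∣ M := by
    intro q hq h2
    apply factorization_ne_two hΔ hfin ha HC hg hss hq
    have h3 : 2 ≤ M.factorization q := (hq.pow_dvd_iff_le_factorization (NeZero.ne M)).mp h2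
    have h4 : ¬ 3 ≤ M.factorization q := fun h => hN3 q hq
      (((hq.pow_dvd_iff_le_factorization (NeZero.ne M)).mpr h).trans hM)
    omega
  have hMc : M ∣ W.conductorLevel := by
    have hsqf : Squarefree M := by
      rw [Nat.squarefree_iff_prime_squarefree]
      intro q hq h
      exact hsq q hq (by rwa [pow_two])
    rw [← Nat.prod_primeFactors_of_squarefree hsqf]
    refine Finset.prod_primes_dvd _ (fun q hq => (Nat.prime_of_mem_primeFactors hq).prime) ?_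
    intro q hq
    have hqp := Nat.prime_of_mem_primeFactors hq
    rw [prime_dvd_conductorLevel_iff W hΔ hqp]
    exact bad_of_exact hΔ hfin ha hg hqp (Nat.dvd_of_mem_primeFactors hq) (hsq q hqp)
  obtain ⟨h, hh, hhg⟩ := exists_eigenform_of_dvd hg.1 hMc
  refine ⟨h, hh, fun ℓ hℓ hW hℓc => ?_⟩
  rw [hhg ℓ hℓ hℓc]
  exact qCoeff_eq hΔ hfin ha hg hℓ (fun h => hℓc (h.trans hMc)) hW

end Fermat.Agent.S58X
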