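import Fermat.Agent.TWDia.Dvr
import Fermat.Agent.GalRep.Data

/-!
# Coefficient rings and linear recurrences
-/

set_option autoImplicit false
set_option linter.style.haveILetI false

noncomputable section

namespace Fermat.Agent.S58X

open IsLocalRing TensorProduct Fermat.Agent.GalRep

/-- complete discrete valuation rings receiving a ring finite over `ℤ` -/
theorem exists_coeff_ring (p : ℕ) [hp : Fact p.Prime] (R₀ : Type) [CommRing R₀] [IsDomain R₀]
    [CharZero R₀] [Module.Finite ℤ R₀] :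
    ∃ (O' : Type) (_ : CommRing O') (_ : IsDomain O') (_ : IsDiscreteValuationRing O')
      (_ : IsAdicComplete (maximalIdeal O') O') (_ : Finite (ResidueField O')) (_ : CharZero O'),
      (p : O') ∈ maximalIdeal O' ∧ Nonempty (R₀ →+* O') := by
  let K := AlgebraicClosure ℚ_[p]
  haveI : CharZero K := inferInstance
  haveI : Algebra.IsIntegral ℤ R₀ := inferInstance
  haveI : Algebra.IsAlgebraic ℤ R₀ := inferInstance
  haveI : FaithfulSMul ℤ K := by
    rw [faithfulSMul_iff_algebraMap_injective]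
    exact (algebraMap ℤ K).injective_int
  let y₀ : R₀ →ₐ[ℤ] K := IsAlgClosed.lift
  let y : ℤ_[p] ⊗[ℤ] R₀ →+* K := (Algebra.TensorProduct.lift
    ((algebraMap ℤ_[p] K).toIntAlgHom) y₀ (fun _ _ => mul_comm _ _)).toRingHom
  obtain ⟨O', i1, i2, i3, i4, i5, i6, i7, h1, jO, y', hj, hy⟩ :=
    TWDia.exists_dvr (p := p) (B := ℤ_[p] ⊗[ℤ] R₀) y
  haveI : Finite (ResidueField ℤ_[p]) := Fermat.Agent.TWPatch.CNL.finRes
  have hinj : Function.Injective (algebraMap ℤ_[p] O') := by
    intro a b hab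
    exact TWDia.injective_padic (jO.comp (algebraMap ℤ_[p] O')) (congrArg jO hab)
  obtain ⟨h2, h3, h4, h5, h6⟩ := GalRep.dvr_ext (O := ℤ_[p]) (B := O') hinj
  refine ⟨O', i1, i2, i3, i4, h5, i5, h1, ⟨y'.comp
    (Algebra.TensorProduct.includeRight (R := ℤ) (A := ℤ_[p]) (B := R₀)).toRingHom⟩⟩

section Rec

variable {G A : Type*} [Group G] [AddCommGroup A] [DistribMulAction G A]

theorem zsmul_gsmul (g : G) (n : ℤ) (x : A) : g • (n • x) = n • (g • x) :=
  (DistribSMul.toAddMonoidHom A g).map_zsmul n x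

/-- the quadratic relation for powers -/
theorem dk_rel (τ : G) (a c : ℤ) (H : AddSubgroup A) (hH : ∀ g : G, ∀ x ∈ H, g • x ∈ H)
    (hrel : ∀ x ∈ H, τ • τ • x - a • τ • x + c • x = 0) (m : ℕ) :
    ∀ x ∈ H, τ ^ m • τ ^ m • x - dk a c m • τ ^ m • x + c ^ m • x = 0 := by
  have h0 : ∀ x ∈ H, τ • x + c • τ⁻¹ • x = a • x := by
    intro x hx
    have h1 := hrel (τ⁻¹ • x) (hH _ _ hx)
    rw [smul_inv_smul] at h1
    have h2 : τ • x + c • τ⁻¹ • x = (τ • x - a • x + c • τ⁻¹ • x) + a • x := by abel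
    rw [h2, h1, zero_add]
  have key : ∀ m : ℕ, ∀ x ∈ H, τ ^ m • x + c ^ m • (τ⁻¹) ^ m • x = dk a c m • x := by
    intro m
    induction m using Nat.twoStepInduction with
    | zero => intro x hx; simp only [pow_zero, one_smul, dk]; rw [two_smul]
    | one => intro x hx; simp only [pow_one, dk]; exact h0 x hx
    | more n ih1 ih2 =>
      intro x hx
      have e1 := ih1 x hx
      have e2 := ih2 x hx
      have hy : τ ^ (n + 1) • x + c ^ (n + 1) • (τ⁻¹) ^ (n + 1) • x ∈ H :=
        H.add_mem (hH _ _ hx) (H.zsmul_mem (hH _ _ hx) _)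
      have e3 := h0 _ hy
      rw [e2] at e3
      rw [dk, sub_smul, mul_smul, mul_smul, ← e3, ← e1, ← e2]
      rw [pow_succ' τ (n + 1), pow_succ' τ n, pow_succ' τ⁻¹ (n + 1), pow_succ' τ⁻¹ n]
      simp only [mul_smul, smul_add, zsmul_gsmul, smul_inv_smul, inv_smul_smul, pow_succ' c]
      abel
  intro x hx
  have := key m (τ ^ m • x) (hH _ _ hx)
  rw [inv_pow, inv_smul_smul] at this
  rw [← this]
  abel

end Rec

end Fermat.Agent.S58X
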